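import Fermat.Agent.TwoAdic.Galois.Defs

/-!
Arithmetic of class C curves: `Δ = -N s²`, `N ≡ 3 (mod 8)`, `b₂` odd, no bad prime divides `c₄`.
-/

set_option autoImplicit false

noncomputable section

open WeierstrassCurve

namespace Fermat.Agent.TwoAdic.Residual

variable {W : WeierstrassCurve ℤ}

theorem not_two_dvd_conductorLevel (hW : IsClassC W) : ¬ 2 ∣ W.conductorLevel := fun h => by
  have h2 := (W.prime_dvd_conductorLevel_iff hW.Δ_ne_zero Nat.prime_two).mp h
  have := hW.Δ_mod_eight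
  omega

theorem exists_Δ_eq_sq (hW : IsClassC W) :
    ∃ s : ℤ, W.Δ = -(W.conductorLevel : ℤ) * s ^ 2 := by
  set n := W.Δ.natAbs with hn
  have hn0 : n ≠ 0 := Int.natAbs_ne_zero.mpr hW.Δ_ne_zero
  obtain ⟨t, s, ht, hs, hts, hsq⟩ := Nat.sq_mul_squarefree_of_pos (Nat.pos_of_ne_zero hn0)
  have hN : t = W.conductorLevel := by
    have hsame : ∀ q : ℕ, q.Prime → (q ∣ t ↔ q ∣ W.conductorLevel) := by
      intro q hq
      rw [W.prime_dvd_conductorLevel_iff hW.Δ_ne_zero hq, ← Int.natCast_dvd_natCast (n := t)]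
      constructor
      · intro h
        rw [← Int.dvd_natAbs, ← hn, ← hts]
        push_cast
        exact Dvd.dvd.mul_left h _
      · intro h
        by_contra hc
        rw [Int.natCast_dvd_natCast] at hc
        have hodd := hW.odd_valuation q hq h
        have := Fact.mk hq
        rw [padicValInt, ← hn, ← hts, padicValNat.mul (pow_ne_zero 2 hs.ne') ht.ne',
          padicValNat.pow s 2, padicValNat.eq_zero_of_not_dvd hc, add_zero] at hodd
        exact (Nat.not_odd_iff_even.mpr (even_two_mul _)) hodd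
    exact (Nat.Squarefree.ext_iff hsq W.squarefree_conductorLevel).mpr hsame
  refine ⟨s, ?_⟩
  have h1 : (W.Δ.natAbs : ℤ) = (s : ℤ) ^ 2 * (W.conductorLevel : ℤ) := by
    rw [← hn, ← hts, hN]; push_cast; rfl
  rw [Int.ofNat_natAbs_of_nonpos hW.Δ_neg.le] at h1
  linarith

theorem conductorLevel_mod_eight (hW : IsClassC W) : W.conductorLevel % 8 = 3 := by
  obtain ⟨s, hs⟩ := exists_Δ_eq_sq hW
  have h5 : ((W.Δ : ℤ) : ZMod 8) = ((5 : ℤ) : ZMod 8) := by
    rw [ZMod.intCast_eq_intCast_iff']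
    simpa using hW.Δ_mod_eight
  rw [hs] at h5
  push_cast at h5
  have key : ∀ n t : ZMod 8, -n * t ^ 2 = 5 → n = 3 := by decide
  have := key _ _ h5
  have h3 : (W.conductorLevel : ZMod 8) = ((3 : ℕ) : ZMod 8) := this
  rw [ZMod.natCast_eq_natCast_iff'] at h3
  simpa using h3

theorem odd_a₁ (hW : IsClassC W) : Odd W.a₁ := by
  classical
  by_contra hodd
  rw [Int.not_odd_iff_even] at hodd
  have hΔ : ¬ (2 : ℤ) ∣ W.Δ := fun h => by have := hW.Δ_mod_eight; omega
  set V := W.reductionMod 2 with hV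
  have hVΔ : V.Δ ≠ 0 := by
    rw [hV, WeierstrassCurve.reductionMod, map_Δ, eq_intCast]
    exact fun h => hΔ (by exact_mod_cast (ZMod.intCast_zmod_eq_zero_iff_dvd _ 2).mp h)
  have ha1 : V.a₁ = 0 := by
    rw [hV, WeierstrassCurve.reductionMod, map_a₁, eq_intCast]
    exact (ZMod.intCast_zmod_eq_zero_iff_dvd _ 2).mpr hodd.two_dvd
  have ha3 : V.a₃ = 1 := by
    simp only [WeierstrassCurve.Δ, WeierstrassCurve.b₂, WeierstrassCurve.b₄, WeierstrassCurve.b₆,
      WeierstrassCurve.b₈, ha1] at hVΔ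
    revert hVΔ
    generalize V.a₂ = b
    generalize V.a₃ = c
    generalize V.a₄ = e
    generalize V.a₆ = g
    revert b c e g
    decide
  have hcard : V.card = (Finset.univ.filter fun xy : ZMod 2 × ZMod 2 =>
      xy.2 ^ 2 + V.a₁ * xy.1 * xy.2 + V.a₃ * xy.2
        = xy.1 ^ 3 + V.a₂ * xy.1 ^ 2 + V.a₄ * xy.1 + V.a₆).card + 1 := by
    rw [WeierstrassCurve.card, Nat.card_congr V.toAffine.nonsingularPointEquiv, WithZero,
      Finite.card_option, Nat.card_eq_fintype_card, Fintype.card_subtype]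
    simp only [← Affine.equation_iff_nonsingular_of_Δ_ne_zero hVΔ, Affine.equation_iff]
  have heven : ∀ a b c e f : ZMod 2, a = 0 → c = 1 → Even (Finset.univ.filter
      fun xy : ZMod 2 × ZMod 2 => xy.2 ^ 2 + a * xy.1 * xy.2 + c * xy.2
        = xy.1 ^ 3 + b * xy.1 ^ 2 + e * xy.1 + f).card := by decide
  obtain ⟨k, hk⟩ := heven V.a₁ V.a₂ V.a₃ V.a₄ V.a₆ ha1 ha3
  obtain ⟨m, hm⟩ := hW.ap_two_odd
  rw [WeierstrassCurve.apOfModel, WeierstrassCurve.traceOfFrobenius, ← hV, hcard, hk,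
    Nat.card_zmod] at hm
  push_cast at hm
  omega

theorem odd_b₂ (hW : IsClassC W) : Odd W.b₂ := by
  rw [WeierstrassCurve.b₂]
  exact ((odd_a₁ hW).pow).add_even (by exact ⟨2 * W.a₂, by ring⟩)

end Fermat.Agent.TwoAdic.Residual
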