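import Fermat.Agent.TwoAdic.Residual.Input
import Fermat.Agent.CFT.Reciprocity.ArtinClass

/-!
The residual data of class C curves from the core reciprocity statement.
-/

set_option autoImplicit false

namespace Fermat.Agent.TwoAdic.Residual

/-- `ResidualInput` from `ReciprocityCore`. -/
theorem residualInput_of_core (hcore : CFT.Reciprocity.ReciprocityCore) : ResidualInput :=
  residualInput (CFT.Reciprocity.artinInput_of_core hcore)

end Fermat.Agent.TwoAdic.Residual
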