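import Fermat.Agent.TwoAdic.Residual.Roots
import Fermat.Agent.TwoAdic.Residual.Level
import Fermat.Agent.EC.Rep.Local.Unipotent
import Mathlib.GroupTheory.Perm.Sign

/-!
The permutation of the two-division roots: sign as the action on `√-N`, trace of `rhoBar` at
Frobenius, and the action of inertia at every prime.
-/

set_option autoImplicit false

noncomputable section

open WeierstrassCurve
open scoped WeierstrassCurve.Affine NumberTheorySymbols Pointwise

namespace Fermat.Agent.TwoAdic.Residual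

open Arith (QBar GQ)
open EC.Rep (PtQ)

variable (W : WeierstrassCurve ℤ) (hΔ : W.Δ ≠ 0)

theorem exists_root_map (σ : GQ) (i : Fin 3) : ∃ j, root W hΔ j = σ (root W hΔ i) := by
  refine exists_root_eq W hΔ ?_
  have h := congrArg σ (root_cubic W hΔ i)
  simpa [map_ofNat] using h

/-- The index of the image of a root. -/
def permFun (σ : GQ) (i : Fin 3) : Fin 3 := (exists_root_map W hΔ σ i).choose

theorem root_permFun (σ : GQ) (i : Fin 3) : root W hΔ (permFun W hΔ σ i) = σ (root W hΔ i) :=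
  (exists_root_map W hΔ σ i).choose_spec

theorem permFun_mul (σ τ : GQ) (i : Fin 3) :
    permFun W hΔ (σ * τ) i = permFun W hΔ σ (permFun W hΔ τ i) := by
  refine root_injective W hΔ ?_
  rw [root_permFun, root_permFun, root_permFun]
  rfl

theorem permFun_one (i : Fin 3) : permFun W hΔ 1 i = i :=
  root_injective W hΔ (by rw [root_permFun]; rfl)

/-- The permutation of the roots. -/
def perm : GQ →* Equiv.Perm (Fin 3) where
  toFun σ :=
    { toFun := permFun W hΔ σ
      invFun := permFun W hΔ σ⁻¹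
      left_inv := fun i => by rw [← permFun_mul, inv_mul_cancel, permFun_one]
      right_inv := fun i => by rw [← permFun_mul, mul_inv_cancel, permFun_one] }
  map_one' := Equiv.ext fun i => permFun_one W hΔ i
  map_mul' σ τ := Equiv.ext fun i => permFun_mul W hΔ σ τ i

theorem root_perm (σ : GQ) (i : Fin 3) : root W hΔ (perm W hΔ σ i) = σ (root W hΔ i) :=
  root_permFun W hΔ σ i

theorem rhoBar_mulVec_vec (σ : GQ) (i : Fin 3) :
    (rhoBar W hΔ σ).mulVec (vec i) = vec (perm W hΔ σ i) := by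
  have hne : pt W hΔ ((rhoBar W hΔ σ).mulVec (vec i)) ≠ 0 := by
    rw [← smul_pt]
    intro h
    refine pt_vec_ne_zero W hΔ i ?_
    rw [← inv_smul_smul σ (pt W hΔ (vec i)), h]
    rfl
  refine pt_injective W hΔ ((two_torsion_spec (pt_vec_ne_zero W hΔ _) (two_zsmul_pt W hΔ _)).2 _
    hne (two_zsmul_pt W hΔ _) ?_)
  rw [← smul_pt, zCoord_smul]
  exact (root_perm W hΔ σ i).symm

theorem matrix_eq_of_vec : ∀ M M' : M2 (ZMod 2),
    (∀ i, M.mulVec (vec i) = M'.mulVec (vec i)) → M = M' := by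
  intro M M' h
  ext a b
  fin_cases b
  · simpa [vec, Matrix.mulVec, dotProduct, Fin.sum_univ_two] using congrFun (h 0) a
  · simpa [vec, Matrix.mulVec, dotProduct, Fin.sum_univ_two] using congrFun (h 1) a

theorem rhoBar_eq_one_iff (σ : GQ) : rhoBar W hΔ σ = 1 ↔ perm W hΔ σ = 1 := by
  constructor
  · intro h
    refine Equiv.ext fun i => vec_injective ?_
    rw [← rhoBar_mulVec_vec, h, Matrix.one_mulVec]
    rfl
  · intro h
    refine matrix_eq_of_vec _ _ fun i => ?_
    rw [rhoBar_mulVec_vec, h, Matrix.one_mulVec]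
    rfl

theorem trace_of_entries : ∀ a b c d : ZMod 2, ∀ p : Fin 3 → Fin 3,
    (∀ i, (!![a, b; c, d] : M2 (ZMod 2)).mulVec (vec i) = vec (p i)) →
      ((∀ i, p i ≠ i) → a + d = 1) ∧ ((∃ i, p i = i) → a + d = 0) := by
  unfold vec
  decide

theorem trace_rhoBar (σ : GQ) :
    ((∀ i, perm W hΔ σ i ≠ i) → (rhoBar W hΔ σ).trace = 1) ∧
      ((∃ i, perm W hΔ σ i = i) → (rhoBar W hΔ σ).trace = 0) := by
  have h := trace_of_entries (rhoBar W hΔ σ 0 0) (rhoBar W hΔ σ 0 1) (rhoBar W hΔ σ 1 0)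
    (rhoBar W hΔ σ 1 1) (fun i => perm W hΔ σ i) fun i => by
      rw [← Matrix.eta_fin_two (rhoBar W hΔ σ)]
      exact rhoBar_mulVec_vec W hΔ σ i
  rwa [Matrix.trace_fin_two]

theorem even_no_fixed : ∀ p : Equiv.Perm (Fin 3), Equiv.Perm.sign p = 1 →
    (p = 1 ∨ ∀ i, p i ≠ i) ∧ (∀ i, p i = i → p = 1) ∧ ∀ i, p i = i + p 0 := by decide

theorem odd_fixed : ∀ p : Equiv.Perm (Fin 3), Equiv.Perm.sign p ≠ 1 → ∃ i, p i = i := by decide

theorem even_sq_eq_one : ∀ p : Equiv.Perm (Fin 3), Equiv.Perm.sign p = 1 → p * p = 1 → p = 1 := by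
  decide

theorem map_diffProd (σ : GQ) :
    σ (diffProd W hΔ) = ((Equiv.Perm.sign (perm W hΔ σ) : ℤ) : QBar) * diffProd W hΔ := by
  simp only [diffProd, map_mul, map_sub, ← root_perm]
  generalize perm W hΔ σ = p
  generalize root W hΔ = e
  have key : ∀ p : Equiv.Perm (Fin 3),
      (p 0 = 0 ∧ p 1 = 1 ∧ p 2 = 2 ∧ (Equiv.Perm.sign p : ℤ) = 1) ∨
      (p 0 = 0 ∧ p 1 = 2 ∧ p 2 = 1 ∧ (Equiv.Perm.sign p : ℤ) = -1) ∨
      (p 0 = 1 ∧ p 1 = 0 ∧ p 2 = 2 ∧ (Equiv.Perm.sign p : ℤ) = -1) ∨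
      (p 0 = 1 ∧ p 1 = 2 ∧ p 2 = 0 ∧ (Equiv.Perm.sign p : ℤ) = 1) ∨
      (p 0 = 2 ∧ p 1 = 0 ∧ p 2 = 1 ∧ (Equiv.Perm.sign p : ℤ) = 1) ∨
      (p 0 = 2 ∧ p 1 = 1 ∧ p 2 = 0 ∧ (Equiv.Perm.sign p : ℤ) = -1) := by decide
  rcases key p with h | h | h | h | h | h <;> obtain ⟨a, b, c, d⟩ := h <;>
    rw [a, b, c, d] <;> push_cast <;> ring

variable {W}

theorem diffProd_ne_zero : diffProd W hΔ ≠ 0 := fun h => by
  have := diffProd_sq W hΔ
  rw [h] at this
  exact hΔ (by simpa using this.symm)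

theorem exists_diffProd_eq (hW : IsClassC W) :
    ∃ c : ℚ, c ≠ 0 ∧ diffProd W hΔ = (c : QBar) * sqrtNeg W.conductorLevel := by
  obtain ⟨s, hs⟩ := exists_Δ_eq_sq hW
  have hs0 : s ≠ 0 := fun h => hΔ (by rw [hs, h]; ring)
  have h1 : diffProd W hΔ ^ 2 = ((16 * s : ℚ) : QBar) ^ 2 * sqrtNeg W.conductorLevel ^ 2 := by
    rw [diffProd_sq, sq_sqrtNeg, hs]
    push_cast
    ring
  rw [← mul_pow] at h1
  rcases sq_eq_sq_iff_eq_or_eq_neg.mp h1 with h2 | h2
  · exact ⟨16 * s, by simp [hs0], h2⟩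
  · refine ⟨-(16 * s), by simp [hs0], h2.trans ?_⟩
    push_cast
    ring

theorem mem_GK_iff (hW : IsClassC W) (σ : GQ) :
    σ ∈ GK W.conductorLevel ↔ Equiv.Perm.sign (perm W hΔ σ) = 1 := by
  obtain ⟨c, hc0, hc⟩ := exists_diffProd_eq hΔ hW
  have hc' : (c : QBar) ≠ 0 := Rat.cast_ne_zero.mpr hc0
  rw [GK, MulAction.mem_stabilizer_iff]
  have h1 := map_diffProd W hΔ σ
  rw [hc, map_mul, map_ratCast] at h1
  have hs0 : sqrtNeg W.conductorLevel ≠ 0 := fun h => diffProd_ne_zero hΔ (by rw [hc, h, mul_zero])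
  constructor
  · intro h
    have h' : σ (sqrtNeg W.conductorLevel) = sqrtNeg W.conductorLevel := h
    rw [h'] at h1
    rcases Int.units_eq_one_or (Equiv.Perm.sign (perm W hΔ σ)) with e | e
    · exact e
    · rw [e] at h1
      push_cast at h1
      exact absurd (mul_left_cancel₀ hc' (by linear_combination (1 / 2 : QBar) * h1 :
        (c : QBar) * sqrtNeg W.conductorLevel = (c : QBar) * 0)) hs0
  · intro h
    rw [h] at h1
    simpa [hc'] using h1

theorem jacobiSym_of_frobenius {N l : ℕ} (hl : l.Prime) (hl2 : l ≠ 2) (hN : ¬ l ∣ N)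
    {A : ValuationSubring QBar} (hA : A.LiesOverPrime l) {σ : GQ} (hσ : A.IsFrobeniusAt σ l) :
    σ ∈ GK N ↔ J(-(N : ℤ) | l) = 1 := by
  have := Fact.mk hl
  set s := sqrtNeg N with hs
  have hsq : s ^ 2 = -(N : QBar) := sq_sqrtNeg N
  have hsmem : s ∈ A := Arith.mem_of_isIntegral A
    (IsIntegral.of_pow two_pos (by rw [hsq]; exact (isIntegral_algebraMap (R := ℤ) (x := (N : ℤ))).neg))
  have hsu : s ∉ A.nonunits := fun h => hN ((Arith.natCast_mem_nonunits_iff hA hl N).mp (by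
    have := Arith.nonunits_neg (Arith.nonunits_mul_left hsmem h)
    rwa [← sq, hsq, neg_neg] at this))
  have h1 : σ s - s ^ l ∈ A.nonunits :=
    (Arith.isFrobeniusAt_iff_forall_mem.mp hσ).2 s hsmem
  have hl' : l = 2 * (l / 2) + 1 := by
    have := hl.eq_two_or_odd
    omega
  have h2 : s ^ l = ((-(N : ℤ)) ^ (l / 2) : ℤ) * s := by
    conv_lhs => rw [hl']
    rw [pow_succ, pow_mul, hsq]
    push_cast
    ring
  have h3 : (((-(N : ℤ)) ^ (l / 2) - J(-(N : ℤ) | l) : ℤ) : QBar) ∈ A.nonunits := by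
    rw [Arith.intCast_mem_nonunits_iff hA hl, ← ZMod.intCast_zmod_eq_zero_iff_dvd]
    push_cast
    rw [← jacobiSym.legendreSym.to_jacobiSym, legendreSym.eq_pow]
    push_cast
    ring
  have h4 : σ s - (J(-(N : ℤ) | l) : QBar) * s ∈ A.nonunits := by
    have := Arith.nonunits_add h1 (Arith.nonunits_mul_right h3 hsmem)
    rw [h2] at this
    convert this using 1
    push_cast
    ring
  have htwo : ∀ e : QBar, e = s + s ∨ e = -(s + s) → e ∉ A.nonunits := by
    intro e he h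
    have h' : s + s ∈ A.nonunits := by
      rcases he with rfl | rfl
      · exact h
      · simpa using Arith.nonunits_neg h
    have h2u : (2 : QBar) ∉ A.nonunits := fun h2 => hl2 (by
      have := (Arith.natCast_mem_nonunits_iff hA hl 2).mp (by exact_mod_cast h2)
      exact (Nat.prime_dvd_prime_iff_eq hl Nat.prime_two).mp this)
    obtain ⟨-, hinv⟩ := (Arith.notMem_nonunits_iff hsmem).mp hsu
    refine h2u ?_
    have := Arith.nonunits_mul_right h' hinv
    have hs0 : s ≠ 0 := ((Arith.notMem_nonunits_iff hsmem).mp hsu).1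
    rwa [← two_mul, mul_inv_cancel_right₀ hs0] at this
  have hσs : σ s = s ∨ σ s = -s := by
    rw [← sq_eq_sq_iff_eq_or_eq_neg, ← map_pow, hsq]
    simp
  rw [GK, MulAction.mem_stabilizer_iff]
  show σ s = s ↔ _
  have hJ : J(-(N : ℤ) | l) = 1 ∨ J(-(N : ℤ) | l) = -1 := by
    rw [← jacobiSym.legendreSym.to_jacobiSym]
    exact legendreSym.eq_one_or_neg_one l (by
      push_cast
      simpa [ZMod.natCast_eq_zero_iff] using hN)
  constructor
  · intro h
    rcases hJ with hj | hj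
    · exact hj
    · rw [h, hj] at h4
      exact absurd h4 (htwo _ (Or.inl (by push_cast; ring)))
  · intro hj
    rcases hσs with h | h
    · exact h
    · rw [h, hj] at h4
      exact absurd h4 (htwo _ (Or.inr (by push_cast; ring)))

theorem trace_rhoBar_frobenius {A : ValuationSubring QBar} {l : ℕ} (hl : l.Prime) (hl2 : l ≠ 2)
    (hgood : W.IsGoodPrimeFor l) (hA : A.LiesOverPrime l) {σ : GQ}
    (hσ : A.IsFrobeniusAt σ l) : (rhoBar W hΔ σ).trace = (W.apOfModel l : ZMod 2) := by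
  have h := (EC.Rep.tateRep_trace_det_frobenius hΔ hl hgood hl2 hA hσ).1
  have h0 : LinearMap.trace ℤ_[2] (ℤ_[2] × ℤ_[2]) (act₁ W hΔ σ) =
      ((W.apOfModel l : ℤ) : ℤ_[2]) := h
  rw [LinearMap.trace_eq_matrix_trace ℤ_[2] (Module.Basis.finTwoProd ℤ_[2])] at h0
  have h' := congrArg PadicInt.toZMod h0
  rw [map_intCast] at h'
  rw [← h']
  simp [rhoBar, rho, act₁, Matrix.trace_fin_two, LinearMap.toMatrixAlgEquiv, LinearMap.toMatrix]
  rfl

theorem perm_inertia_of_good {A : ValuationSubring QBar} {l : ℕ} (hl : l.Prime) (hl2 : l ≠ 2)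
    (hgood : W.IsGoodPrimeFor l) (hA : A.LiesOverPrime l) {σ : GQ}
    (hσ : σ ∈ A.inertiaSubgroupIn ℚ) : perm W hΔ σ = 1 := by
  rw [← rhoBar_eq_one_iff, rhoBar, rho]
  have h1 : act₁ W hΔ σ = 1 :=
    EC.Rep.isUnramifiedAt_tateRep (p := 2) hΔ hl hgood hl2 A hA σ hσ
  show (LinearMap.toMatrixAlgEquiv (Module.Basis.finTwoProd ℤ_[2]) (act₁ W hΔ σ)).map
    (PadicInt.toZMod (p := 2)) = 1
  rw [h1, map_one]
  exact Matrix.map_one _ (map_zero _) (map_one _)

theorem perm_inertia_bad (hW : IsClassC W) {A : ValuationSubring QBar} {l : ℕ} (hl : l.Prime)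
    (hdvd : (l : ℤ) ∣ W.Δ) (hA : A.LiesOverPrime l) {σ : GQ}
    (hσ : σ ∈ A.inertiaSubgroupIn ℚ) : perm W hΔ σ * perm W hΔ σ = 1 := by
  have hl2 : l ≠ 2 := by
    rintro rfl
    have := hW.Δ_mod_eight
    omega
  have hss : ¬ ((l : ℤ) ∣ W.c₄ ∧ (l : ℤ) ∣ W.Δ) :=
    fun h => hW.semistable l hl h.2 h.1
  rw [← map_mul, ← rhoBar_eq_one_iff]
  refine matrix_eq_of_vec _ _ fun i => pt_injective W hΔ ?_
  rw [Matrix.one_mulVec, map_mul, ← Matrix.mulVec_mulVec, ← smul_pt, ← smul_pt]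
  have hx : ((2 : ℕ) : ℤ) ^ 1 • pt W hΔ (vec i) = 0 := by
    rw [pow_one]; exact two_zsmul_pt W hΔ _
  have h1 := EC.Rep.smul_smul_sub_of_semistable (W := W) (p := 2) hl hl2 hss hΔ hA hσ 1 hx
  have h2 : σ • (σ • pt W hΔ (vec i)) - σ • pt W hΔ (vec i) =
      σ • pt W hΔ (vec i) - pt W hΔ (vec i) := (smul_sub σ _ _).symm.trans h1
  have h3 : ((2 : ℕ) : ℤ) • (σ • pt W hΔ (vec i)) = 0 := by
    rw [smul_pt]; exact two_zsmul_pt W hΔ _
  have h4 : ((2 : ℕ) : ℤ) • pt W hΔ (vec i) = 0 := two_zsmul_pt W hΔ _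
  rw [Nat.cast_ofNat, two_zsmul] at h3 h4
  linear_combination (norm := abel) h2 + h3 - h4

theorem exists_fixed_decomposition_two (hW : IsClassC W) {A : ValuationSubring QBar}
    (hA : A.LiesOverPrime 2) : ∃ i, ∀ σ : GQ, σ • A = A → perm W hΔ σ i = i := by
  have hint : ∀ i, root W hΔ i ∈ A := by
    intro i
    refine Arith.mem_of_isIntegral A ⟨Polynomial.X ^ 3 + Polynomial.C W.b₂ * Polynomial.X ^ 2 +
      Polynomial.C (8 * W.b₄) * Polynomial.X + Polynomial.C (16 * W.b₆), by monicity!, ?_⟩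
    show Polynomial.aeval (root W hΔ i) _ = 0
    simp only [map_add, map_mul, map_pow, Polynomial.aeval_X, eq_intCast]
    push_cast
    simp only [map_mul, map_ofNat, map_intCast]
    exact root_cubic W hΔ i
  have h2 : ∀ m : ℤ, (2 : ℤ) ∣ m → (m : QBar) ∈ A.nonunits := fun m hm =>
    (Arith.intCast_mem_nonunits_iff hA Nat.prime_two m).mpr hm
  have hres : ∀ i, root W hΔ i ∈ A.nonunits ∨ root W hΔ i + (W.b₂ : QBar) ∈ A.nonunits := by
    intro i
    by_contra h
    push Not at h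
    have hb : root W hΔ i + (W.b₂ : QBar) ∈ A := A.add_mem _ _ (hint i) (intCast_mem A _)
    obtain ⟨hi0, hi⟩ := (Arith.notMem_nonunits_iff (hint i)).mp h.1
    obtain ⟨hb0, hb'⟩ := (Arith.notMem_nonunits_iff hb).mp h.2
    have h16 : (((8 * W.b₄ : ℤ) : QBar) * root W hΔ i + ((16 * W.b₆ : ℤ) : QBar)) *
        ((root W hΔ i)⁻¹ * (root W hΔ i)⁻¹ * (root W hΔ i + (W.b₂ : QBar))⁻¹) ∈ A.nonunits :=
      Arith.nonunits_mul_right (Arith.nonunits_add
        (Arith.nonunits_mul_right (h2 _ ⟨4 * W.b₄, by ring⟩) (hint i))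
        (h2 _ ⟨8 * W.b₆, by ring⟩)) (A.mul_mem _ _ (A.mul_mem _ _ hi hi) hb')
    have e : ((8 * W.b₄ : ℤ) : QBar) * root W hΔ i + ((16 * W.b₆ : ℤ) : QBar) =
        -(root W hΔ i ^ 2 * (root W hΔ i + (W.b₂ : QBar))) := by
      push_cast
      linear_combination root_cubic W hΔ i
    rw [e] at h16
    refine Arith.one_notMem_nonunits (A := A) ?_
    have := Arith.nonunits_neg h16
    convert this using 1
    field_simp
  have hb2 : (W.b₂ : QBar) ∉ A.nonunits := fun h =>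
    Int.not_even_iff_odd.mpr (odd_b₂ hW)
      (even_iff_two_dvd.mpr ((Arith.intCast_mem_nonunits_iff hA Nat.prime_two _).mp h))
  have hnot : ¬ ∀ i, root W hΔ i ∈ A.nonunits := fun h => hb2 (by
    have := Arith.nonunits_neg (Arith.nonunits_add (Arith.nonunits_add (h 0) (h 1)) (h 2))
    rwa [root_sum, neg_neg] at this)
  push Not at hnot
  obtain ⟨i, hi⟩ := hnot
  have huniq : ∀ j, root W hΔ j ∉ A.nonunits → j = i := by
    intro j hj
    by_contra hne
    have hthird : ∀ a b : Fin 3, a ≠ b → ∃ k, ∀ m : Fin 3, m = a ∨ m = b ∨ m = k := by decide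
    obtain ⟨k, hk⟩ := hthird i j (Ne.symm hne)
    have hbi := (hres i).resolve_left hi
    have hbj := (hres j).resolve_left hj
    have hbb : (W.b₂ : QBar) + (W.b₂ : QBar) ∈ A.nonunits := by
      rw [← two_mul]
      exact Arith.nonunits_mul_right (by exact_mod_cast h2 2 dvd_rfl) (intCast_mem A _)
    rcases hres k with hk' | hk'
    · have hki : k ≠ i ∧ k ≠ j := ⟨fun e => hi (e ▸ hk'), fun e => hj (e ▸ hk')⟩
      have hsum : root W hΔ i + root W hΔ j + root W hΔ k = -(W.b₂ : QBar) := by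
        have hperm : ∀ (g : Fin 3 → QBar) (a b c : Fin 3), a ≠ b → c ≠ a → c ≠ b →
            g a + g b + g c = g 0 + g 1 + g 2 := by
          intro g a b c hab hca hcb
          have huniv : ({a, b, c} : Finset (Fin 3)) = Finset.univ := by
            revert hab hca hcb; revert a b c; decide
          rw [← Fin.sum_univ_three g, ← huniv, Finset.sum_insert, Finset.sum_pair (Ne.symm hcb)]
          · ring
          · simp [hab, Ne.symm hca]
        rw [← root_sum W hΔ]
        exact hperm _ i j k (Ne.symm hne) hki.1 hki.2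
      have h := Arith.nonunits_add (Arith.nonunits_add hbi hbj) hk'
      rw [show root W hΔ i + (W.b₂ : QBar) + (root W hΔ j + (W.b₂ : QBar)) + root W hΔ k =
        (root W hΔ i + root W hΔ j + root W hΔ k) + ((W.b₂ : QBar) + (W.b₂ : QBar)) by ring,
        hsum, neg_add_cancel_left] at h
      exact hb2 h
    · have hall : ∀ m, root W hΔ m + (W.b₂ : QBar) ∈ A.nonunits := fun m => by
        rcases hk m with rfl | rfl | rfl <;> assumption
      have hpair : ∀ m n, root W hΔ m * root W hΔ n - (W.b₂ : QBar) * (W.b₂ : QBar) ∈ A.nonunits :=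
        fun m n => by
          have h := Arith.nonunits_sub (Arith.nonunits_mul_right (hall m) (hint n))
            (Arith.nonunits_mul_left (intCast_mem A W.b₂) (hall n))
          convert h using 1
          ring
      have h := Arith.nonunits_sub (Arith.nonunits_add (Arith.nonunits_add (hpair 0 1) (hpair 0 2))
        (hpair 1 2)) (h2 (8 * W.b₄ - 4 * (W.b₂ * W.b₂)) ⟨4 * W.b₄ - 2 * (W.b₂ * W.b₂), by ring⟩)
      have hsq : (W.b₂ : QBar) * (W.b₂ : QBar) ∈ A.nonunits := by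
        convert h using 1
        push_cast
        linear_combination -(root_sum₂ W hΔ)
      exact hb2 (by
        obtain ⟨h0, hinv⟩ := (Arith.notMem_nonunits_iff (intCast_mem A W.b₂)).mp hb2
        simpa [h0, mul_assoc] using Arith.nonunits_mul_right hsq hinv)
  refine ⟨i, fun σ hσ => huniq _ fun h => hi ?_⟩
  rw [root_perm] at h
  have h' : σ • root W hΔ i ∈ (σ • A).nonunits := hσ.symm ▸ h
  exact Arith.smul_mem_nonunits_smul_iff.mp h' 

/-- The permutation of an element of `GK` in any inertia group is trivial. -/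
theorem perm_inertia_GK (hW : IsClassC W) {A : ValuationSubring QBar} {l : ℕ} (hl : l.Prime)
    (hA : A.LiesOverPrime l) {σ : GQ} (hσ : σ ∈ A.inertiaSubgroupIn ℚ)
    (hK : σ ∈ GK W.conductorLevel) : perm W hΔ σ = 1 := by
  have hsign := (mem_GK_iff hΔ hW σ).mp hK
  rcases eq_or_ne l 2 with rfl | hl2
  · obtain ⟨i, hi⟩ := exists_fixed_decomposition_two hΔ hW hA
    exact (even_no_fixed _ hsign).2.1 i (hi σ (EC.Reduction.res_inertia hσ).1)
  by_cases hdvd : (l : ℤ) ∣ W.Δ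
  · exact even_sq_eq_one _ hsign (perm_inertia_bad hΔ hW hl hdvd hA hσ)
  · exact perm_inertia_of_good hΔ hl hl2 hdvd hA hσ

end Fermat.Agent.TwoAdic.Residual
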