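import Fermat.Agent.TwoAdic.Galois.Defs
import Fermat.Agent.CFT.Reciprocity.Statement
import Fermat.Agent.TwoAdic.IdealCount.Quadratic
import Fermat.Agent.ClassField.SplitPrimes

/-!
The field `ℚ(√-N)` inside `QBar` and the prime under a split place.
-/

set_option autoImplicit false

noncomputable section

open NumberField nonZeroDivisors

namespace Fermat.Agent.TwoAdic.Residual

open Arith (QBar GQ)

/-- `ℚ(√-N)` inside `QBar`. -/
abbrev KQ (N : ℕ) : IntermediateField ℚ QBar := CFT.Reciprocity.quadField N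

theorem sqrtNeg_mem_KQ (N : ℕ) : sqrtNeg N ∈ KQ N :=
  IntermediateField.subset_adjoin ℚ _ rfl

theorem fixes_KQ {N : ℕ} {σ : GQ} (hσ : σ ∈ GK N) {x : QBar} (hx : x ∈ KQ N) : σ x = x :=
  IntermediateField.mem_fixedField_iff _ _ |>.mp
    ((IntermediateField.adjoin_le_iff.mpr (by
      simp only [Set.singleton_subset_iff, SetLike.mem_coe]
      exact (IntermediateField.mem_fixedField_iff (GK N) _).mpr fun g hg => hg)) hx) σ hσ

theorem mem_GK_of_fixes {N : ℕ} {σ : GQ} (h : ∀ x ∈ KQ N, σ x = x) : σ ∈ GK N :=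
  h _ (sqrtNeg_mem_KQ N)

theorem isQuadField_KQ {N : ℕ} (hsq : Squarefree N) (hN : N % 4 = 3) :
    IdealCount.IsQuadField (KQ N) N where
  squarefree := hsq
  mod_four := hN
  exists_sqrt := ⟨⟨sqrtNeg N, sqrtNeg_mem_KQ N⟩, Subtype.ext (by simpa using sq_sqrtNeg N)⟩
  finrank_eq := by
    have hint : IsIntegral ℚ (sqrtNeg N) := Algebra.IsIntegral.isIntegral _
    have hdeg : ((Polynomial.X : Polynomial ℚ) ^ 2 + Polynomial.C (N : ℚ)).natDegree = 2 := by
      rw [Polynomial.natDegree_add_C, Polynomial.natDegree_X_pow]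
    have hirr : Irreducible ((Polynomial.X : Polynomial ℚ) ^ 2 + Polynomial.C (N : ℚ)) := by
      refine Polynomial.irreducible_of_degree_le_three_of_not_isRoot
        (by rw [hdeg]; simp) fun x hx => ?_
      simp at hx
      have : (0 : ℚ) < N := by exact_mod_cast (show 0 < N by omega)
      nlinarith [sq_nonneg x]
    rw [IntermediateField.adjoin.finrank hint, ← minpoly.eq_of_irreducible_of_monic hirr
      (by simp [sq_sqrtNeg]) (by monicity!), hdeg]

/-- The integers of `ℚ(√-N)` among all algebraic integers. -/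
def toIntClosure (N : ℕ) : 𝓞 (KQ N) →+* integralClosure ℤ QBar where
  toFun x := ⟨((x : KQ N) : QBar), map_isIntegral_int (KQ N).val.toRingHom x.isIntegral_coe⟩
  map_one' := Subtype.ext (by simp)
  map_mul' x y := Subtype.ext (by simp)
  map_zero' := Subtype.ext (by simp)
  map_add' x y := Subtype.ext (by simp)

/-- The prime of `ℚ(√-N)` under a place. -/
def underPlace (N : ℕ) (A : ValuationSubring QBar) : Ideal (𝓞 (KQ N)) :=
  (Arith.centre A).comap (toIntClosure N)

theorem mem_underPlace {N : ℕ} {A : ValuationSubring QBar} {x : 𝓞 (KQ N)} :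
    x ∈ underPlace N A ↔ ((x : KQ N) : QBar) ∈ A.nonunits :=
  Ideal.mem_comap.trans (Arith.mem_centre A)

/-- Under a place with Frobenius fixing `√-N` lies a prime of norm `l`. -/
theorem absNorm_underPlace {N l : ℕ} (hl : l.Prime) (hN : IdealCount.IsQuadField (KQ N) N)
    {A : ValuationSubring QBar} (hA : A.LiesOverPrime l) {σ : GQ} (hσ : A.IsFrobeniusAt σ l)
    (hK : σ ∈ GK N) : Ideal.absNorm (underPlace N A) = l := by
  have := Fact.mk hl
  have hp : (underPlace N A).IsPrime := Ideal.IsPrime.comap _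
  have hlP : (l : 𝓞 (KQ N)) ∈ underPlace N A := by
    rw [mem_underPlace]
    have h : (((l : 𝓞 (KQ N)) : KQ N) : QBar) = (l : QBar) := by simp
    rw [h]
    exact hA
  have hne : underPlace N A ≠ ⊥ := fun h => by
    rw [h, Ideal.mem_bot] at hlP
    exact hl.ne_zero (Nat.cast_eq_zero.mp hlP)
  have hmax : (underPlace N A).IsMaximal := hp.isMaximal hne
  have : Finite (𝓞 (KQ N) ⧸ underPlace N A) := Ideal.finiteQuotientOfFreeOfNeBot _ hne
  have hle : Ideal.absNorm (underPlace N A) ≤ l := by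
    rw [Ideal.absNorm_apply, Submodule.cardQuot_apply]
    refine ClassField.natCard_quotient_le hl.one_lt fun x => ?_
    rw [mem_underPlace]
    have h1 := (Arith.isFrobeniusAt_iff_forall_mem.mp hσ).2 _
      (Arith.mem_of_isIntegral A (map_isIntegral_int (KQ N).val.toRingHom x.isIntegral_coe))
    have h2 : σ ((x : KQ N) : QBar) = ((x : KQ N) : QBar) := fixes_KQ hK (x : KQ N).2
    have h3 := Arith.nonunits_neg h1
    change -(σ ((x : KQ N) : QBar) - ((x : KQ N) : QBar) ^ l) ∈ A.nonunits at h3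
    rw [h2] at h3
    simpa [neg_sub] using h3
  have hdvd : Ideal.absNorm (underPlace N A) ∣ l ^ 2 := by
    rw [← hN.finrank_eq, ← RingOfIntegers.rank (KQ N),
      ← Ideal.absNorm_span_natCast (S := 𝓞 (KQ N))]
    exact Ideal.absNorm_dvd_absNorm_of_le ((Ideal.span_singleton_le_iff_mem _).mpr hlP)
  obtain ⟨k, hk, hkeq⟩ := (Nat.dvd_prime_pow hl).mp hdvd
  interval_cases k
  · rw [pow_zero, Ideal.absNorm_eq_one_iff] at hkeq
    exact absurd hkeq hp.ne_top
  · simpa using hkeq
  · rw [hkeq] at hle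
    nlinarith [hl.two_le]

/-- The prime under a split place as a nonzero ideal. -/
theorem exists_prime_under {N l : ℕ} (hl : l.Prime) (hN : IdealCount.IsQuadField (KQ N) N)
    {A : ValuationSubring QBar} (hA : A.LiesOverPrime l) {σ : GQ} (hσ : A.IsFrobeniusAt σ l)
    (hK : σ ∈ GK N) :
    ∃ P : (Ideal (𝓞 (KQ N)))⁰, Ideal.absNorm (P : Ideal (𝓞 (KQ N))) = l ∧
      ∀ x ∈ (P : Ideal (𝓞 (KQ N))), (((x : KQ N) : QBar)) ∈ A.nonunits :=
  ⟨⟨underPlace N A, mem_nonZeroDivisors_of_ne_zero fun h => hl.ne_zero (by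
      rw [← absNorm_underPlace hl hN hA hσ hK, h]
      exact Ideal.absNorm_bot)⟩,
    absNorm_underPlace hl hN hA hσ hK, fun _ hx => mem_underPlace.mp hx⟩

end Fermat.Agent.TwoAdic.Residual
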