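import Fermat.Agent.TwoAdic.Residual.Artin
import Fermat.Agent.Arith.Chebotarev.Main

/-!
Unramified characters of `GK N` through the class group: degree one primes realising every value,
a largest two-power quotient of the class group coming from such characters, and class number one
for `N = 3`.
-/

set_option autoImplicit false

noncomputable section

open NumberField nonZeroDivisors
open scoped NumberTheorySymbols

namespace Fermat.Agent.TwoAdic.Residual

open Arith (QBar GQ)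
open CFT.Reciprocity (ArtinInput)

variable {N : ℕ}

theorem coe_sub_natCast (x : 𝓞 (KQ N)) (a : ℕ) :
    (((x - a : 𝓞 (KQ N)) : KQ N) : QBar) = ((x : KQ N) : QBar) - a := by
  simp

/-- Trivial on the Galois group of some number field. -/
def IsFiniteChar {H : Type} [Monoid H] (χ : GK N →* H) : Prop :=
  ∃ L : IntermediateField ℚ QBar, FiniteDimensional ℚ L ∧
    ∀ σ : GK N, (∀ x ∈ L, (σ : GQ) x = x) → χ σ = 1

/-- Trivial on all inertia groups. -/
def IsUnramifiedChar {H : Type} [Monoid H] (χ : GK N →* H) : Prop :=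
  ∀ l : ℕ, l.Prime → ∀ A : ValuationSubring QBar, A.LiesOverPrime l →
    ∀ σ : GK N, (σ : GQ) ∈ A.inertiaSubgroupIn ℚ → χ σ = 1

/-- `f` sends degree one primes to Frobenius. -/
def IsArtinMap {H : Type} [CommGroup H] (χ : GK N →* H)
    (f : ClassGroup (𝓞 (KQ N)) →* H) : Prop :=
  ∀ l : ℕ, l.Prime → ¬ l ∣ 2 * N → ∀ A : ValuationSubring QBar, A.LiesOverPrime l →
    ∀ σ : GK N, A.IsFrobeniusAt (σ : GQ) l → ∀ P : (Ideal (𝓞 (KQ N)))⁰,
      Ideal.absNorm (P : Ideal (𝓞 (KQ N))) = l →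
        (∀ x ∈ (P : Ideal (𝓞 (KQ N))), (((x : KQ N) : QBar)) ∈ A.nonunits) →
          f (ClassGroup.mk0 P) = χ σ

theorem exists_artinMap (hart : ArtinInput) (hsq : Squarefree N) (hN : N % 4 = 3) {H : Type}
    [CommGroup H] [Finite H] {p k : ℕ} (hp : p.Prime) (hp' : p = 2 ∨ p = 3)
    (hH : Nat.card H = p ^ k) (χ : GK N →* H) (hfin : IsFiniteChar χ)
    (hunr : IsUnramifiedChar χ) : ∃ f, IsArtinMap χ f :=
  hart N hsq hN H p k hp hH hp' χ hfin hunr

/-- Every element of `GK N` agrees with Frobenius at split primes outside any finite set. -/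
theorem exists_split_frobenius (hK : IdealCount.IsQuadField (KQ N) N) {H : Type} [Group H]
    (χ : GK N →* H) (hfin : IsFiniteChar χ) (g : GK N) (S : Finset ℕ) :
    ∃ l : ℕ, l.Prime ∧ l ∉ S ∧ ¬ l ∣ 2 * N ∧ J(-(N : ℤ) | l) = 1 ∧
      ∃ A : ValuationSubring QBar, A.LiesOverPrime l ∧ ∃ σ : GK N,
        A.IsFrobeniusAt (σ : GQ) l ∧ χ σ = χ g ∧ ∃ P : (Ideal (𝓞 (KQ N)))⁰,
          Ideal.absNorm (P : Ideal (𝓞 (KQ N))) = l ∧
            ∀ x ∈ (P : Ideal (𝓞 (KQ N))), (((x : KQ N) : QBar)) ∈ A.nonunits := by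
  classical
  obtain ⟨L, hLfin, hL⟩ := hfin
  let L' : IntermediateField ℚ QBar :=
    IntermediateField.normalClosure ℚ (↥(L ⊔ KQ N)) QBar
  have hNor : Normal ℚ L' := normalClosure.normal ℚ _ QBar
  have : IsGalois ℚ L' := ⟨⟩
  have hle : L ⊔ KQ N ≤ L' := (L ⊔ KQ N).le_normalClosure
  obtain ⟨l, hl, hlS, A, hA, σ, hσ, heq⟩ :=
    Arith.Chebotarev.exists_frobenius_eq (AlgEquiv.restrictNormalHom L') L'
      (fun τ hτ => (Arith.Chebotarev.restrictNormalHom_eq_one_iff L').mpr hτ) (g : GQ)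
      (S ∪ (2 * N).primeFactors)
  have h1 : ∀ x ∈ L', ((g : GQ)⁻¹ * σ) x = x := by
    refine (Arith.Chebotarev.restrictNormalHom_eq_one_iff L').mp ?_
    rw [map_mul, map_inv, heq, inv_mul_cancel]
  have hτ : (g : GQ)⁻¹ * σ ∈ GK N :=
    mem_GK_of_fixes fun x hx => h1 x (hle (le_sup_right (a := L) hx))
  have hσK : σ ∈ GK N := by
    have := mul_mem g.2 hτ
    rwa [mul_inv_cancel_left] at this
  have hl2N : ¬ l ∣ 2 * N := fun h => hlS (Finset.mem_union_right _ (Nat.mem_primeFactors.mpr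
    ⟨hl, h, by have := hK.mod_four; omega⟩))
  have hl2 : l ≠ 2 := fun h => hl2N (h ▸ dvd_mul_right 2 N)
  have hχ : χ ⟨σ, hσK⟩ = χ g := by
    have h2 : χ (g⁻¹ * ⟨σ, hσK⟩) = 1 :=
      hL _ fun x hx => h1 x (hle (le_sup_left (b := KQ N) hx))
    rwa [map_mul, map_inv, inv_mul_eq_one, eq_comm] at h2
  refine ⟨l, hl, fun h => hlS (Finset.mem_union_left _ h), hl2N, ?_, A, hA, ⟨σ, hσK⟩, hσ, hχ,
    exists_prime_under hl hK hA hσ hσK⟩
  have hJ : J(-(N : ℤ) | l) = 1 := by
    have := Fact.mk hl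
    rw [← jacobiSym.legendreSym.to_jacobiSym, legendreSym.eq_one_iff]
    · obtain ⟨a, ha⟩ : ∃ a : ℕ, (sqrtNeg N) - (a : QBar) ∈ A.nonunits := by
        obtain ⟨P, hP, hPA⟩ := exists_prime_under hl hK hA hσ hσK
        let w : 𝓞 (KQ N) :=
          ⟨⟨sqrtNeg N, sqrtNeg_mem_KQ N⟩, IsIntegral.of_pow two_pos (by
            rw [show (⟨sqrtNeg N, sqrtNeg_mem_KQ N⟩ : KQ N) ^ 2 = ((-(N : ℤ) : ℤ) : KQ N) from
              Subtype.ext (by simpa using sq_sqrtNeg N)]
            exact isIntegral_algebraMap)⟩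
        obtain ⟨a, ha⟩ := ClassField.exists_natCast_sub_mem (R := 𝓞 (KQ N)) hP w
        exact ⟨a, (coe_sub_natCast w a) ▸ hPA _ ha⟩
      refine ⟨(a : ZMod l), ?_⟩
      have h2 : ((-(N : ℤ) - (a : ℤ) * a : ℤ) : QBar) ∈ A.nonunits := by
        have hs : sqrtNeg N ∈ A := Arith.mem_of_isIntegral A (IsIntegral.of_pow two_pos (by
          rw [sq_sqrtNeg]; exact (isIntegral_algebraMap (R := ℤ) (x := (N : ℤ))).neg))
        have := Arith.nonunits_mul_right ha (A.add_mem _ _ hs (natCast_mem A a))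
        convert this using 1
        push_cast
        linear_combination -(sq_sqrtNeg N)
      rw [Arith.intCast_mem_nonunits_iff hA hl, ← ZMod.intCast_zmod_eq_zero_iff_dvd] at h2
      push_cast at h2 ⊢
      linear_combination h2
    · push_cast
      simp only [ne_eq, neg_eq_zero, ZMod.natCast_eq_zero_iff]
      exact fun h => hl2N (dvd_mul_of_dvd_right h 2)
  exact hJ

theorem isArtinMap_surjective (hK : IdealCount.IsQuadField (KQ N) N) {H : Type} [CommGroup H]
    {χ : GK N →* H} (hsurj : Function.Surjective χ) (hfin : IsFiniteChar χ)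
    {f : ClassGroup (𝓞 (KQ N)) →* H} (hf : IsArtinMap χ f) : Function.Surjective f := fun c => by
  obtain ⟨g, rfl⟩ := hsurj c
  obtain ⟨l, hl, -, hl2N, -, A, hA, σ, hσ, hχ, P, hP, hPA⟩ :=
    exists_split_frobenius hK χ hfin g ∅
  exact ⟨ClassGroup.mk0 P, (hf l hl hl2N A hA σ hσ P hP hPA).trans hχ⟩

theorem IsFiniteChar.rangeRestrict {H : Type} [CommGroup H] {χ : GK N →* H}
    (h : IsFiniteChar χ) : IsFiniteChar χ.rangeRestrict := by
  obtain ⟨L, hL, hL'⟩ := h
  exact ⟨L, hL, fun σ hσ => Subtype.ext (hL' σ hσ)⟩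

theorem IsUnramifiedChar.rangeRestrict {H : Type} [CommGroup H] {χ : GK N →* H}
    (h : IsUnramifiedChar χ) : IsUnramifiedChar χ.rangeRestrict :=
  fun l hl A hA σ hσ => Subtype.ext (h l hl A hA σ hσ)

/-- A surjective unramified character onto a group of order `2 ^ k`, with its Artin map. -/
def HasTwoPowChar (N k : ℕ) : Prop :=
  ∃ (H : Type) (_ : CommGroup H) (_ : Finite H) (χ : GK N →* H)
    (f : ClassGroup (𝓞 (KQ N)) →* H), Nat.card H = 2 ^ k ∧ Function.Surjective χ ∧
      IsFiniteChar χ ∧ IsUnramifiedChar χ ∧ IsArtinMap χ f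

theorem hasTwoPowChar_range (hart : ArtinInput) (hsq : Squarefree N) (hN : N % 4 = 3) {H : Type}
    [CommGroup H] [Finite H] (hH : IsPGroup 2 H) (χ : GK N →* H) (hfin : IsFiniteChar χ)
    (hunr : IsUnramifiedChar χ) :
    ∃ k, Nat.card χ.range = 2 ^ k ∧ HasTwoPowChar N k := by
  have := Fact.mk Nat.prime_two
  obtain ⟨k, hk⟩ := IsPGroup.iff_card.mp (hH.to_subgroup χ.range)
  obtain ⟨f, hf⟩ := exists_artinMap hart hsq hN Nat.prime_two (Or.inl rfl) hk χ.rangeRestrict
    hfin.rangeRestrict hunr.rangeRestrict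
  exact ⟨k, hk, χ.range, inferInstance, inferInstance, χ.rangeRestrict, f, hk,
    χ.rangeRestrict_surjective, hfin.rangeRestrict, hunr.rangeRestrict, hf⟩

/-- A two-power character of greatest image: it bounds all of them. -/
theorem exists_maxTwoPowChar (hart : ArtinInput) (hsq : Squarefree N) (hN : N % 4 = 3) :
    ∃ k, HasTwoPowChar N k ∧ UnramifiedCharBound N (2 ^ k) := by
  classical
  have hK := isQuadField_KQ hsq hN
  have hb : ∀ k, HasTwoPowChar N k → k ≤ Nat.card (ClassGroup (𝓞 (KQ N))) := by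
    rintro k ⟨H, _, _, χ, f, hc, hs, hfin, -, hf⟩
    have h1 := Nat.card_le_card_of_surjective f (isArtinMap_surjective hK hs hfin hf)
    rw [hc] at h1
    exact Nat.lt_two_pow_self.le.trans h1
  obtain ⟨k₀, -, h0⟩ := hasTwoPowChar_range hart hsq hN (H := Unit) (IsPGroup.of_card (n := 0)
    (by simp)) 1 ⟨⊥, inferInstance, fun _ _ => rfl⟩ fun _ _ _ _ _ _ => rfl
  refine ⟨Nat.findGreatest (HasTwoPowChar N) (Nat.card (ClassGroup (𝓞 (KQ N)))),
    Nat.findGreatest_spec (hb k₀ h0) h0, ?_⟩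
  intro H _ _ hH χ hfin hunr
  obtain ⟨k, hk, hk'⟩ := hasTwoPowChar_range hart hsq hN hH χ hfin hunr
  rw [hk]
  exact Nat.pow_le_pow_right two_pos (Nat.le_findGreatest (hb k hk') hk')

/-- `ℚ(√-3)` has class number one. -/
theorem classGroup_eq_one_of_three {K : Type*} [Field K] [NumberField K]
    (h : IdealCount.IsQuadField K 3) (c : ClassGroup (𝓞 K)) : c = 1 := by
  have hq : h.quarter = 1 := rfl
  have hdisc : |NumberField.discr K| = 3 := by
    rw [← NumberField.discr_eq_discr K h.intBasis, Algebra.discr_def, Matrix.det_fin_two]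
    simp only [Algebra.traceMatrix_apply, Algebra.traceForm_apply, h.intBasis_apply,
      Matrix.cons_val_zero, Matrix.cons_val_one, one_mul, mul_one]
    have htr : ∀ A B : ℤ, Algebra.trace ℤ (𝓞 K) (A • (1 : 𝓞 K) + B • h.omega) = 2 * A + B := by
      intro A B
      rw [Algebra.trace_eq_matrix_trace h.intBasis, Matrix.trace_fin_two,
        Algebra.leftMulMatrix_eq_repr_mul, Algebra.leftMulMatrix_eq_repr_mul, h.intBasis_apply,
        h.intBasis_apply]
      have e : (A • (1 : 𝓞 K) + B • h.omega) * h.omega =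
          (-(h.quarter * B)) • (1 : 𝓞 K) + (A + B) • h.omega := by
        rw [add_mul, smul_mul_assoc, one_mul, smul_mul_assoc, h.omega_mul_omega]
        module
      simp only [Matrix.cons_val_zero, Matrix.cons_val_one, mul_one, e, h.intBasis_repr]
      ring
    have h1 := htr 1 0
    have h2 := htr 0 1
    have h3 := htr (-1) 1
    simp only [one_smul, zero_smul, add_zero, zero_add] at h1 h2
    rw [h.omega_mul_omega, hq, h1, h2, h3]
    norm_num
  have hPID : IsPrincipalIdealRing (𝓞 K) := by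
    refine RingOfIntegers.isPrincipalIdealRing_of_abs_discr_lt ?_
    rw [hdisc, h.finrank_eq]
    have hr : InfinitePlace.nrComplexPlaces K ≤ 1 := by
      have := InfinitePlace.card_add_two_mul_card_eq_rank K
      rw [h.finrank_eq] at this
      omega
    have hpi := Real.pi_gt_three
    have hpi4 := Real.pi_le_four
    interval_cases (InfinitePlace.nrComplexPlaces K) <;> norm_num [Nat.factorial] <;> nlinarith
  obtain ⟨I, rfl⟩ := ClassGroup.mk0_surjective c
  exact (ClassGroup.mk0_eq_one_iff I.2).mpr (IsPrincipalIdealRing.principal _)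

end Fermat.Agent.TwoAdic.Residual
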