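import Fermat.Agent.TwoAdic.Galois.Interface
import Fermat.Agent.TwoAdic.Galois.Residual
import Fermat.Agent.TwoAdic.Residual.Galois
import Fermat.Agent.TwoAdic.Residual.Characters
import Fermat.Agent.TwoAdic.IdealCount.Data

/-!
The residual data of a class C curve: the cubic character of `E[2]` and the largest two-power
unramified character as functions on the class group, given unramified Artin reciprocity.
-/

set_option autoImplicit false

noncomputable section

open NumberField nonZeroDivisors WeierstrassCurve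
open scoped NumberTheorySymbols WeierstrassCurve.Affine

namespace Fermat.Agent.TwoAdic.Residual

open Arith (QBar GQ)
open CFT.Reciprocity (ArtinInput)

/-- Some element fixing `√-N` moves the two-division points. -/
theorem exists_rotation {W : WeierstrassCurve ℤ} (hW : IsClassC W) :
    ∃ σ ∈ GK W.conductorLevel, perm W hW.Δ_ne_zero σ ≠ 1 := by
  obtain ⟨σ, hσ⟩ := exists_rhoBar_mul_self_ne_one hW
  refine ⟨σ * σ, (mem_GK_iff hW.Δ_ne_zero hW _).mpr ?_, fun h => hσ ?_⟩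
  · rw [map_mul, map_mul, Int.units_mul_self]
  · rw [← map_mul]
    exact (rhoBar_eq_one_iff W _ _).mpr h

variable {W : WeierstrassCurve ℤ} (hΔ : W.Δ ≠ 0) (hW : IsClassC W)

/-- `Fin 3` as the cyclic group of order three. -/
def cyc (i : Fin 3) : Multiplicative (ZMod 3) := Multiplicative.ofAdd ((i : ℕ) : ZMod 3)

theorem cyc_add : ∀ i j : Fin 3, cyc (i + j) = cyc i * cyc j := by decide

theorem cyc_eq_one_iff : ∀ i : Fin 3, cyc i = 1 ↔ i = 0 := by decide

/-- The cubic character of the two-division field over `ℚ(√-N)`. -/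
def psiGal (hΔ : W.Δ ≠ 0) (hW : IsClassC W) : GK W.conductorLevel →* Multiplicative (ZMod 3) where
  toFun σ := cyc (perm W hΔ (σ : GQ) 0)
  map_one' := by simp only [OneMemClass.coe_one, map_one]; rfl
  map_mul' σ τ := by
    rw [← cyc_add]
    congr 1
    rw [Subgroup.coe_mul, map_mul, Equiv.Perm.mul_apply,
      (even_no_fixed _ ((mem_GK_iff hΔ hW _).mp σ.2)).2.2, add_comm]

theorem psiGal_eq_one_iff (σ : GK W.conductorLevel) :
    psiGal hΔ hW σ = 1 ↔ perm W hΔ (σ : GQ) = 1 := by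
  constructor
  · intro h
    refine (even_no_fixed _ ((mem_GK_iff hΔ hW _).mp σ.2)).2.1 0 ?_
    exact (cyc_eq_one_iff _).mp h
  · intro h
    show cyc _ = _
    rw [h]
    rfl

theorem trace_rhoBar_of_mem_GK (σ : GK W.conductorLevel) :
    (rhoBar W hΔ (σ : GQ)).trace = if psiGal hΔ hW σ = 1 then 0 else 1 := by
  split_ifs with h
  · exact (trace_rhoBar W hΔ _).2 ⟨0, by rw [(psiGal_eq_one_iff hΔ hW σ).mp h]; rfl⟩
  · rcases (even_no_fixed _ ((mem_GK_iff hΔ hW _).mp σ.2)).1 with h' | h'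
    · exact absurd ((psiGal_eq_one_iff hΔ hW σ).mpr h') h
    · exact (trace_rhoBar W hΔ _).1 h'

theorem isFiniteChar_psiGal : IsFiniteChar (psiGal hΔ hW) := by
  refine ⟨IntermediateField.adjoin ℚ (Set.range (root W hΔ)), ?_, fun σ hσ => ?_⟩
  · exact IntermediateField.finiteDimensional_adjoin fun x _ => Algebra.IsIntegral.isIntegral x
  · refine (psiGal_eq_one_iff hΔ hW σ).mpr (Equiv.ext fun i => root_injective W hΔ ?_)
    rw [root_perm, hσ _ (IntermediateField.subset_adjoin ℚ _ ⟨i, rfl⟩)]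
    rfl

theorem isUnramifiedChar_psiGal : IsUnramifiedChar (psiGal hΔ hW) := fun _ hl _ hA σ hσ =>
  (psiGal_eq_one_iff hΔ hW σ).mpr (perm_inertia_GK hΔ hW hl hA hσ σ.2)

include hW in
theorem psiGal_surjective : Function.Surjective (psiGal hΔ hW) := by
  obtain ⟨σ, hσK, hσ⟩ := exists_rotation hW
  set e := psiGal hΔ hW ⟨σ, hσK⟩
  have he : e ≠ 1 := fun h => hσ ((psiGal_eq_one_iff hΔ hW _).mp h)
  have key : ∀ e x : Multiplicative (ZMod 3), e ≠ 1 → x = 1 ∨ x = e ∨ x = e ^ 2 := by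
    have h : ∀ a b : ZMod 3, a ≠ 0 → b = 0 ∨ b = a ∨ b = a + a := by decide
    intro e x he
    rw [sq]
    exact h e.toAdd x.toAdd he
  intro x
  rcases key e x he with rfl | rfl | rfl
  · exact ⟨1, map_one _⟩
  · exact ⟨_, rfl⟩
  · refine ⟨((⟨σ, hσK⟩ : GK W.conductorLevel) * ⟨σ, hσK⟩), ?_⟩
    rw [map_mul, sq]

/-- Prime classes over the same split prime are equal or inverse. -/
theorem eq_or_eq_inv_of_isPrimeClass {N : ℕ} {D : Forms.IdealData N} {l : ℕ}
    {p q : D.G} (hp : D.IsPrimeClass l p) (hq : D.IsPrimeClass l q) : p = q ∨ p = q⁻¹ := by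
  have h1 := hp p 1 one_pos
  have h2 := hq p 1 one_pos
  rw [h2, mul_inv_cancel, D.idealCount_one_one] at h1
  by_contra hne
  push Not at hne
  rw [D.idealCount_one_of_ne _ (fun h => hne.1 (mul_inv_eq_one.mp h)),
    D.idealCount_one_of_ne _ (fun h => hne.2 (mul_eq_one_iff_eq_inv.mp h))] at h1
  omega

/-- `ResidualInput` from unramified Artin reciprocity. -/
theorem residualInput (hart : ArtinInput) : ResidualInput := by
  classical
  intro W hW
  have hΔ := hW.Δ_ne_zero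
  set N := W.conductorLevel with hNdef
  have h8 : N % 8 = 3 := conductorLevel_mod_eight hW
  have h4 : N % 4 = 3 := by omega
  have hsq : Squarefree N := W.squarefree_conductorLevel
  have hK := isQuadField_KQ hsq h4
  obtain ⟨fψ, hfψ⟩ := exists_artinMap hart hsq h4 Nat.prime_three (Or.inr rfl) (k := 1)
    (by simp [Nat.card_eq_fintype_card]) (psiGal hΔ hW) (isFiniteChar_psiGal hΔ hW)
    (isUnramifiedChar_psiGal hΔ hW)
  have hψs := psiGal_surjective hΔ hW
  have hfψs := isArtinMap_surjective hK hψs (isFiniteChar_psiGal hΔ hW) hfψ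
  have hN3 : 3 < N := by
    by_contra hle
    have hN : N = 3 := by omega
    obtain ⟨c, hc⟩ := hfψs (Multiplicative.ofAdd 1)
    have : c = 1 := classGroup_eq_one_of_three (K := KQ N) ⟨hK.finrank_eq, hN ▸ hsq, rfl,
      by obtain ⟨s, hs⟩ := hK.exists_sqrt; exact ⟨s, by rw [hs, hN]⟩⟩ c
    rw [this, map_one] at hc
    exact absurd hc (by decide)
  obtain ⟨k, ⟨H, _, _, χ, fC, hcard, hχs, hχfin, hχunr, hfC⟩, hbound⟩ :=
    exists_maxTwoPowChar hart hsq h4
  let := Fintype.ofFinite H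
  have hjoint : Function.Surjective (χ.prod (psiGal hΔ hW)) := by
    rintro ⟨c, e⟩
    obtain ⟨g₁, hg₁⟩ := hχs c
    obtain ⟨g₂, hg₂⟩ := hψs e
    have hcop : Nat.Coprime (Nat.card H) 3 := by
      rw [hcard]
      exact Nat.Coprime.pow_left k (by decide)
    obtain ⟨a, b, hab⟩ := Int.isCoprime_iff_gcd_eq_one.mpr
      (by exact_mod_cast hcop : Int.gcd (Nat.card H : ℤ) 3 = 1)
    have hH : ∀ x : H, x ^ (Nat.card H : ℤ) = 1 := fun x => by
      rw [zpow_natCast, pow_card_eq_one']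
    have h3 : ∀ x : Multiplicative (ZMod 3), x ^ (3 : ℤ) = 1 := by decide
    refine ⟨g₁ ^ (b * 3) * g₂ ^ (a * (Nat.card H : ℤ)), Prod.ext
      (?_ : χ _ = c) (?_ : psiGal hΔ hW _ = e)⟩ <;>
      simp only [map_mul, map_zpow, hg₁, hg₂]
    · conv_rhs => rw [← zpow_one c, ← hab, zpow_add, zpow_mul' c a, hH, one_zpow, one_mul]
      rw [zpow_mul' (χ g₂) a, hH, one_zpow, mul_one]
    · conv_rhs => rw [← zpow_one e, ← hab, zpow_add, zpow_mul' e b, h3, one_zpow, mul_one]
      rw [zpow_mul' (psiGal hΔ hW g₁) b, h3, one_zpow, one_mul]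
  have hjfin : IsFiniteChar (χ.prod (psiGal hΔ hW)) := by
    obtain ⟨L₁, _, hL₁⟩ := hχfin
    obtain ⟨L₂, _, hL₂⟩ := isFiniteChar_psiGal hΔ hW
    exact ⟨L₁ ⊔ L₂, inferInstance, fun σ hσ => Prod.ext
      (hL₁ σ fun x hx => hσ x (le_sup_left (b := L₂) hx))
      (hL₂ σ fun x hx => hσ x (le_sup_right (a := L₁) hx))⟩
  let D := hK.idealData h8 hN3
  have habar : ∀ l : ℕ, l.Prime → l ≠ 2 → ¬ l ∣ N →
      ∀ A : ValuationSubring QBar, A.LiesOverPrime l → ∀ σ : GQ, A.IsFrobeniusAt σ l →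
        (W.apOfModel l : ZMod 2) = (rhoBar W hΔ σ).trace := fun l hl hl2 hlN A hA σ hσ =>
    (trace_rhoBar_frobenius hΔ hl hl2
      (fun h => hlN ((W.prime_dvd_conductorLevel_iff hΔ hl).mpr h)) hA hσ).symm
  have hnot : ∀ l : ℕ, l.Prime → ∀ {j : ℤ}, j ≠ 0 → J(-(N : ℤ) | l) = j → ¬ l ∣ N := by
    intro l hl j hj hJ hdvd
    have := Fact.mk hl
    rw [← jacobiSym.legendreSym.to_jacobiSym, (legendreSym.eq_zero_iff l _).mpr (by
      push_cast
      simpa [ZMod.natCast_eq_zero_iff] using hdvd)] at hJ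
    exact hj hJ.symm
  refine ⟨hN3, D,
    { C := H
      card_two_pow := ⟨k, by rw [← Nat.card_eq_fintype_card, hcard]⟩
      art := fC
      psi := fψ
      abar := fun l => (W.apOfModel l : ZMod 2)
      abar_two := (ZMod.intCast_eq_one_iff_odd).mpr hW.ap_two_odd
      abar_inert := fun l hl hl2 => ?_
      abar_split := fun l hl hl2 hJ p hp => ?_
      prime_surj := fun c e S => ?_ }, fun l _ _ _ => rfl, ?_⟩
  · have hJ := hl.2.resolve_left hl2
    obtain ⟨A, hA⟩ := Arith.exists_liesOverPrime hl.1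
    obtain ⟨σ, hσ⟩ := Arith.exists_isFrobeniusAt hA hl.1
    have hlN := hnot l hl.1 (by decide) hJ
    rw [habar l hl.1 hl2 hlN A hA σ hσ]
    refine (trace_rhoBar W hΔ σ).2 (odd_fixed _ fun hs => ?_)
    have := (jacobiSym_of_frobenius hl.1 hl2 hlN hA hσ).mp ((mem_GK_iff hΔ hW σ).mpr hs)
    rw [this] at hJ
    exact absurd hJ (by decide)
  · obtain ⟨A, hA⟩ := Arith.exists_liesOverPrime hl
    obtain ⟨σ, hσ⟩ := Arith.exists_isFrobeniusAt hA hl
    have hlN := hnot l hl one_ne_zero hJ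
    have hσK := (jacobiSym_of_frobenius hl hl2 hlN hA hσ).mpr hJ
    have h2N : ¬ l ∣ 2 * N := fun h => (hl.dvd_mul.mp h).elim
      (fun h' => hl2 ((Nat.prime_dvd_prime_iff_eq hl Nat.prime_two).mp h')) hlN
    obtain ⟨P, hP, hPA⟩ := exists_prime_under hl hK hA hσ hσK
    have hψ := hfψ l hl h2N A hA ⟨σ, hσK⟩ hσ P hP hPA
    rw [habar l hl hl2 hlN A hA σ hσ, trace_rhoBar_of_mem_GK hΔ hW ⟨σ, hσK⟩, ← hψ]
    rcases eq_or_eq_inv_of_isPrimeClass hp (hK.isPrimeClass_mk0 h8 hN3 hl hl2 hJ P hP)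
      with rfl | rfl
    · rfl
    · exact if_congr (by
        show fψ (ClassGroup.mk0 P) = 1 ↔ fψ (ClassGroup.mk0 P)⁻¹ = 1
        rw [map_inv, inv_eq_one]) rfl rfl
  · obtain ⟨g, hg⟩ := hjoint (c, e)
    obtain ⟨l, hl, hlS, hl2N, hJ, A, hA, σ, hσ, hχσ, P, hP, hPA⟩ :=
      exists_split_frobenius hK _ hjfin g S
    have hl2 : l ≠ 2 := fun h => hl2N (h ▸ dvd_mul_right 2 N)
    rw [hg, MonoidHom.prod_apply, Prod.mk.injEq] at hχσ
    exact ⟨l, hl, hlS, hl2, hJ, ClassGroup.mk0 P, hK.isPrimeClass_mk0 h8 hN3 hl hl2 hJ P hP,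
      (hfC l hl hl2N A hA σ hσ P hP hPA).trans hχσ.1,
      (hfψ l hl hl2N A hA σ hσ P hP hPA).trans hχσ.2⟩
  · intro H' _ _ hH' χ' hfin hunr
    refine (hbound H' hH' χ' hfin hunr).trans_eq ?_
    exact hcard.symm.trans Nat.card_eq_fintype_card

end Fermat.Agent.TwoAdic.Residual
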