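import Fermat.Agent.TwoAdic.Galois.Defs

/-!
The points of order two of a class C curve: the equivariant parametrisation by `𝔽₂²` and the roots
`root W hΔ : Fin 3 → QBar` of the scaled two-division cubic `z³ + b₂ z² + 8 b₄ z + 16 b₆`, whose
squared difference product is `256 Δ`.
-/

set_option autoImplicit false

noncomputable section

open WeierstrassCurve
open scoped WeierstrassCurve.Affine

namespace Fermat.Agent.TwoAdic.Residual

open Arith (QBar GQ)
open EC.Rep (PtQ tateRed)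

variable (W : WeierstrassCurve ℤ) (hΔ : W.Δ ≠ 0)

/-- The projection of the Tate module to `E[2]`, on coordinates. -/
def red₁ : ℤ_[2] × ℤ_[2] →+ PtQ W := tateRed hΔ 1

theorem red₁_smul (c : ℤ_[2]) (v : ℤ_[2] × ℤ_[2]) (a : ℤ)
    (h : c - a ∈ Ideal.span {((2 : ℕ) : ℤ_[2]) ^ 1}) : red₁ W hΔ (c • v) = a • red₁ W hΔ v :=
  EC.Rep.tateRed_smul hΔ h v

/-- The action on the coordinates of the Tate module. -/
def act₁ (σ : GQ) : ℤ_[2] × ℤ_[2] →ₗ[ℤ_[2]] ℤ_[2] × ℤ_[2] := (EC.Rep.tateRep W 2 hΔ).ρ σ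

theorem red₁_act (σ : GQ) (v : ℤ_[2] × ℤ_[2]) :
    red₁ W hΔ (act₁ W hΔ σ v) = σ • red₁ W hΔ v :=
  EC.Rep.red_tateRep hΔ σ 1 v

/-- The point of order dividing two with given coordinates. -/
def pt (v : Fin 2 → ZMod 2) : PtQ W :=
  ((v 0).val : ℤ) • red₁ W hΔ (1, 0) +
    ((v 1).val : ℤ) • red₁ W hΔ (0, 1)

theorem sub_val_toZMod_mem (c : ℤ_[2]) :
    c - (((PadicInt.toZMod c).val : ℤ) : ℤ_[2]) ∈ Ideal.span {((2 : ℕ) : ℤ_[2]) ^ 1} := by
  rw [pow_one, ← PadicInt.maximalIdeal_eq_span_p, ← PadicInt.ker_toZMod, RingHom.mem_ker, map_sub,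
    map_intCast, Int.cast_natCast, ZMod.natCast_zmod_val, sub_self]

theorem tateRed_one_eq_pt (w : ℤ_[2] × ℤ_[2]) :
    red₁ W hΔ w = pt W hΔ ![PadicInt.toZMod w.1, PadicInt.toZMod w.2] := by
  have hw : w = w.1 • ((1, 0) : ℤ_[2] × ℤ_[2]) + w.2 • ((0, 1) : ℤ_[2] × ℤ_[2]) := by simp
  conv_lhs => rw [hw]
  rw [map_add, red₁_smul W hΔ _ _ _ (sub_val_toZMod_mem w.1),
    red₁_smul W hΔ _ _ _ (sub_val_toZMod_mem w.2)]
  simp [pt]

theorem smul_pt (σ : GQ) (v : Fin 2 → ZMod 2) :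
    σ • pt W hΔ v = pt W hΔ ((rhoBar W hΔ σ).mulVec v) := by
  let w : ℤ_[2] × ℤ_[2] := (((v 0).val : ℤ_[2]), ((v 1).val : ℤ_[2]))
  have hv : v = ![PadicInt.toZMod w.1, PadicInt.toZMod w.2] := by
    ext i; fin_cases i <;> simp [w]
  conv_lhs => rw [hv, ← tateRed_one_eq_pt, ← red₁_act]
  rw [tateRed_one_eq_pt]
  congr 1
  have h : (rho W hΔ σ).mulVec ![w.1, w.2] =
      ![(act₁ W hΔ σ w).1, (act₁ W hΔ σ w).2] := by
    have h1 := LinearMap.toMatrix_mulVec_repr (Module.Basis.finTwoProd ℤ_[2])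
      (Module.Basis.finTwoProd ℤ_[2]) (act₁ W hΔ σ) w
    have h2 : ∀ u : ℤ_[2] × ℤ_[2],
        ((Module.Basis.finTwoProd ℤ_[2]).repr u : Fin 2 → ℤ_[2]) = ![u.1, u.2] := fun u => by
      ext i; fin_cases i <;> simp
    rw [h2, h2] at h1
    exact h1
  ext i
  have h3 := congrArg (fun x => PadicInt.toZMod (x i)) h
  rw [hv, rhoBar]
  simp only [RingHom.map_mulVec] at h3
  fin_cases i <;>
    simpa [Function.comp_def, Matrix.mulVec, dotProduct, Fin.sum_univ_two] using h3.symm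

theorem two_zsmul_tateRed (w : ℤ_[2] × ℤ_[2]) :
    ((2 : ℕ) : ℤ) • red₁ W hΔ w = 0 :=
  ((congrArg (fun k : ℤ => k • red₁ W hΔ w) (pow_one _)).symm).trans
    (EC.Rep.pow_smul_tateRed hΔ 1 w)

theorem two_zsmul_pt (v : Fin 2 → ZMod 2) : ((2 : ℕ) : ℤ) • pt W hΔ v = 0 := by
  rw [pt, zsmul_add, smul_comm, two_zsmul_tateRed, smul_comm, two_zsmul_tateRed, zsmul_zero,
    zsmul_zero, add_zero]

theorem pt_bijective : Function.Bijective fun v => (⟨pt W hΔ v,
    (Submodule.mem_torsionBy_iff _ _).mpr (two_zsmul_pt W hΔ v)⟩ :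
      Submodule.torsionBy ℤ (PtQ W) ((2 : ℕ) : ℤ)) := by
  have hcard : Nat.card (Submodule.torsionBy ℤ (PtQ W) ((2 : ℕ) : ℤ)) = 2 ^ 2 :=
    EC.Rep.natCard_torsion W 2 hΔ
  refine Function.Surjective.bijective_of_nat_card_le (fun x => ?_) ?_
  · obtain ⟨w, hw⟩ := EC.Rep.exists_tateRed_eq (p := 2) hΔ 1 (x := x.1)
      (by rw [pow_one]; exact (Submodule.mem_torsionBy_iff _ _).mp x.2)
    refine ⟨![PadicInt.toZMod w.1, PadicInt.toZMod w.2], Subtype.ext ?_⟩
    rw [← hw]
    exact (tateRed_one_eq_pt W hΔ w).symm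
  · have : Nat.card (Fin 2 → ZMod 2) = 4 := by simp [Nat.card_eq_fintype_card]
    omega

theorem pt_injective : Function.Injective (pt W hΔ) := fun v w h =>
  (pt_bijective W hΔ).injective (Subtype.ext h)

theorem pt_zero : pt W hΔ 0 = 0 := by simp [pt]

variable {W} in
/-- `4 x` of an affine point, `0` at infinity. -/
def zCoord : PtQ W → QBar
  | .zero => 0
  | .some x _ _ => 4 * x

variable {W} in
theorem zCoord_smul (σ : GQ) (P : PtQ W) : zCoord (σ • P) = σ (zCoord P) := by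
  match P with
  | .zero => exact (map_zero σ).symm
  | .some x y h =>
    show 4 * σ x = σ (4 * x)
    rw [map_mul, map_ofNat]

variable {W} in
theorem two_torsion_spec {P : PtQ W} (hP : P ≠ 0) (h2 : ((2 : ℕ) : ℤ) • P = 0) :
    zCoord P ^ 3 + (W.b₂ : QBar) * zCoord P ^ 2 + 8 * (W.b₄ : QBar) * zCoord P +
        16 * (W.b₆ : QBar) = 0 ∧
      ∀ Q : PtQ W, Q ≠ 0 → ((2 : ℕ) : ℤ) • Q = 0 → zCoord Q = zCoord P → Q = P := by
  classical
  have key : ∀ {x y : QBar}
      (h : ((W.map (Int.castRingHom ℚ))⁄QBar).toAffine.Nonsingular x y),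
      ((2 : ℕ) : ℤ) • (.some x y h : PtQ W) = 0 →
        2 * y + (W.a₁ : QBar) * x + (W.a₃ : QBar) = 0 := by
    intro x y h h2
    have h3 : (.some x y h : PtQ W) = -(.some x y h : PtQ W) := by
      rw [eq_neg_iff_add_eq_zero]
      simpa [two_zsmul] using h2
    rw [Affine.Point.neg_some] at h3
    have h4 := (Affine.Point.some.injEq ..).mp h3 |>.2
    simp only [Affine.negY] at h4
    simp at h4
    linear_combination h4
  match P, hP, h2 with
  | .some x y h, _, h2 =>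
    have hy := key h h2
    refine ⟨?_, fun Q hQ hQ2 hz => ?_⟩
    · have he := (Affine.equation_iff x y).mp h.1
      simp at he
      simp only [zCoord, WeierstrassCurve.b₂, WeierstrassCurve.b₄, WeierstrassCurve.b₆]
      push_cast
      linear_combination (-64 : QBar) * he +
        16 * (2 * y + (W.a₁ : QBar) * x + (W.a₃ : QBar)) * hy
    · match Q, hQ, hQ2 with
      | .some x' y' h', _, hQ2 =>
        have hy' := key h' hQ2
        have hx : x' = x := by simpa [zCoord] using hz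
        have hyy : y' = y := by
          linear_combination (1 / 2 : QBar) * hy' - (1 / 2 : QBar) * hy -
            (1 / 2 : QBar) * (W.a₁ : QBar) * hx
        subst hx hyy
        rfl
      | .zero, hQ, _ => exact absurd rfl hQ
  | .zero, hP, _ => exact absurd rfl hP

/-- The three nonzero vectors. -/
def vec : Fin 3 → Fin 2 → ZMod 2 := ![![1, 0], ![0, 1], ![1, 1]]

theorem vec_injective : Function.Injective vec := by unfold Function.Injective vec; decide

theorem vec_ne_zero : ∀ i, vec i ≠ 0 := by unfold vec; decide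

theorem exists_vec_eq : ∀ v : Fin 2 → ZMod 2, v ≠ 0 → ∃ i, vec i = v := by unfold vec; decide

/-- The roots of the scaled two-division cubic. -/
def root (i : Fin 3) : QBar := zCoord (pt W hΔ (vec i))

theorem pt_vec_ne_zero (i : Fin 3) : pt W hΔ (vec i) ≠ 0 := fun h =>
  vec_ne_zero i (pt_injective W hΔ (h.trans (pt_zero W hΔ).symm))

theorem root_injective : Function.Injective (root W hΔ) := fun i j h =>
  vec_injective (pt_injective W hΔ
    ((two_torsion_spec (pt_vec_ne_zero W hΔ j) (two_zsmul_pt W hΔ _)).2 _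
      (pt_vec_ne_zero W hΔ i) (two_zsmul_pt W hΔ _) h))

theorem root_cubic (i : Fin 3) : root W hΔ i ^ 3 + (W.b₂ : QBar) * root W hΔ i ^ 2 +
    8 * (W.b₄ : QBar) * root W hΔ i + 16 * (W.b₆ : QBar) = 0 :=
  (two_torsion_spec (pt_vec_ne_zero W hΔ i) (two_zsmul_pt W hΔ _)).1

theorem root_sum : root W hΔ 0 + root W hΔ 1 + root W hΔ 2 = -(W.b₂ : QBar) := by
  have h0 := root_cubic W hΔ 0
  have h1 := root_cubic W hΔ 1
  have h2 := root_cubic W hΔ 2
  have d01 := sub_ne_zero.mpr ((root_injective W hΔ).ne (by decide : (0 : Fin 3) ≠ 1))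
  have d02 := sub_ne_zero.mpr ((root_injective W hΔ).ne (by decide : (0 : Fin 3) ≠ 2))
  have d12 := sub_ne_zero.mpr ((root_injective W hΔ).ne (by decide : (1 : Fin 3) ≠ 2))
  generalize root W hΔ 0 = a at *
  generalize root W hΔ 1 = b at *
  generalize root W hΔ 2 = c at *
  refine mul_left_cancel₀ (mul_ne_zero (mul_ne_zero d01 d02) d12) ?_
  linear_combination (b - c) * h0 + (c - a) * h1 + (a - b) * h2

theorem root_sum₂ : root W hΔ 0 * root W hΔ 1 + root W hΔ 0 * root W hΔ 2 +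
    root W hΔ 1 * root W hΔ 2 = 8 * (W.b₄ : QBar) := by
  have hs := root_sum W hΔ
  have h0 := root_cubic W hΔ 0
  have h1 := root_cubic W hΔ 1
  have d01 := sub_ne_zero.mpr ((root_injective W hΔ).ne (by decide : (0 : Fin 3) ≠ 1))
  generalize root W hΔ 0 = a at *
  generalize root W hΔ 1 = b at *
  generalize root W hΔ 2 = c at *
  refine mul_left_cancel₀ d01 ?_
  linear_combination -h0 + h1 + (a ^ 2 - b ^ 2) * hs

theorem root_prod : root W hΔ 0 * root W hΔ 1 * root W hΔ 2 = -16 * (W.b₆ : QBar) := by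
  have hs := root_sum W hΔ
  have hq := root_sum₂ W hΔ
  have h0 := root_cubic W hΔ 0
  generalize root W hΔ 0 = a at *
  generalize root W hΔ 1 = b at *
  generalize root W hΔ 2 = c at *
  linear_combination h0 - a ^ 2 * hs + a * hq

theorem root_factor (z : QBar) :
    (z - root W hΔ 0) * (z - root W hΔ 1) * (z - root W hΔ 2) =
      z ^ 3 + (W.b₂ : QBar) * z ^ 2 + 8 * (W.b₄ : QBar) * z + 16 * (W.b₆ : QBar) := by
  linear_combination -z ^ 2 * root_sum W hΔ + z * root_sum₂ W hΔ - root_prod W hΔ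

theorem exists_root_eq {z : QBar}
    (h : z ^ 3 + (W.b₂ : QBar) * z ^ 2 + 8 * (W.b₄ : QBar) * z + 16 * (W.b₆ : QBar) = 0) :
    ∃ i, root W hΔ i = z := by
  rw [← root_factor W hΔ, mul_eq_zero, mul_eq_zero, sub_eq_zero, sub_eq_zero, sub_eq_zero] at h
  rcases h with (h | h) | h <;> exact ⟨_, h.symm⟩

/-- The product of the differences of the roots. -/
def diffProd : QBar :=
  (root W hΔ 0 - root W hΔ 1) * (root W hΔ 0 - root W hΔ 2) * (root W hΔ 1 - root W hΔ 2)

theorem diffProd_sq : diffProd W hΔ ^ 2 = 256 * (W.Δ : QBar) := by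
  have hs := root_sum W hΔ
  have hq := root_sum₂ W hΔ
  have hp := root_prod W hΔ
  have hb : 4 * (W.b₈ : QBar) = (W.b₂ : QBar) * (W.b₆ : QBar) - (W.b₄ : QBar) ^ 2 := by
    exact_mod_cast W.b_relation
  unfold diffProd
  rw [WeierstrassCurve.Δ]
  push_cast
  generalize root W hΔ 0 = a at *
  generalize root W hΔ 1 = b at *
  generalize root W hΔ 2 = c at *
  have e : ((a - b) * (a - c) * (b - c)) ^ 2 = (a + b + c) ^ 2 * (a * b + a * c + b * c) ^ 2 -
      4 * (a * b + a * c + b * c) ^ 3 - 4 * (a + b + c) ^ 3 * (a * b * c) +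
      18 * (a + b + c) * (a * b + a * c + b * c) * (a * b * c) - 27 * (a * b * c) ^ 2 := by ring
  rw [e, hs, hq, hp]
  linear_combination 64 * (W.b₂ : QBar) ^ 2 * hb

end Fermat.Agent.TwoAdic.Residual
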